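import Mathlib
import Fermat.Agent.LT.T7.H893.SupplyConstrSpec

/-!
# Row LT, tower T7, node T7.L2.1.H2a `H893.BaseC` (registry row 2597): FIRST CUT -- Spec

OFF-MAIN.  Definitions and frozen Props only (the proved top is `BaseCutTop.lean`).  No hole,
nothing assumed.  ADDITIVE (new names only, suffix `797`).  Vocabulary: the five cuts of helper893
(`T7/H893/Supply*Spec.lean`, helper893@0e092c774, `SupplyConstrSpec.lean` feb0f69771ab) and
`T7/H305/MatchSpec.lean`, byte-identical copies.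

    baseGC_of797 : ExpC797 K K' → CosetC797 K K' → PairAC797 P K K' LA → PairBC797 P K K' LB
        → BaseGC797 P K K' LA LB
    baseC_of797  : ExpC797 K K' → CosetC797 K K' → PairAC797 P K K' LocA893
        → PairBC797 P K K' LocB893 → H893.BaseC P K K'                       (VERBATIM)

## The cut

The pre-data `E : L2Pre K K'` are thirteen independent components.  The properties
`IsL2PreOp`, `IsL2PreSupp`, `IsDecomp893` couple them only through the level `𝔫`, the exponents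
`(T₀, n, n₀, m)` of the levels (determined by `𝔫` and the common part) and the Haar measure `μc`
of `GL₂(ℂ)`.  So the node splits into two INDEPENDENT constructions and two small leaves:

* **`ExpC797`** (LEAF, small; ideals of Dedekind domains): the exponents of a non-zero level.
* **`CosetC797`** (LEAF, closed assets): the five coset systems exist
  (`H593.exists_isDblCosetSystem593`, `H83.exists_isIwCosetSystem83`,
  `H129.exists_scalarUniformizer129`).
* **`PairAC797 P LA`** (NODE A = the FIRST pair `(Φ₁ X, F₁ X)`, all words; T3 + T6, NO bad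
  element, NO natural average): for EVERY level `𝔫` with the four level properties and EVERY
  Haar measure `μc`.  Upstairs the word applied to the Eisenstein-killing function of T3 with
  unit components at the places of the level; downstairs the base change.
* **`PairBC797 P LB`** (NODE B = the SECOND pair `(φ₂, f₂)`, for one bad element; T3 + T6 + the
  natural average): CHOOSES the level `𝔫` (deep enough for the partners of the double coset
  functions at the bad places) and the Haar measure `μc`, and gives the pair for every constant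
  `a ≠ 0`.

Both nodes are PARAMETRIC in the local shape (`LA`, `LB`), so that the top serves the shapes of
record `LocA893`, `LocB893` of helper893 AND the corrected shape of helper467 (note 18439: the
clause `split` of `LocHyp305` for ONE `σ`-ordered enumeration of every fibre) without change.

FALSITY CHECKS (helper797).  (a) Node A for every level: the components at the places of the
level are the unit elements `1_{U(n_w)}`, which act as the identity on the functions of the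
base level (volume `1`), so the scalar `c₁` does not depend on the depth.  (b) Node A for every
Haar measure `μc`: the components downstairs at infinity are DEFINED by the convolution
`convL305 μc`; all properties downstairs are homogeneous in `F₁`.  (c) The exponents are the
same for both pairs: they are quantified universally in both nodes.  (d) `up_ne` is split into
`up1_ne` (`c₁`) and `up2_ne` (`c₂`).
-/

set_option autoImplicit false

open AutomorphicForm IsDedekindDomain NumberField MeasureTheory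
open scoped ComplexConjugate

noncomputable section

namespace Fermat.Agent.LT.T7.Q797

open Fermat.Agent.LT.H556 Fermat.Agent.LT.H556.A0 Fermat.Agent.LT.T7
open Fermat.Agent.LT.T7.H893 Fermat.Agent.LT.T7.H305

attribute [local instance] Fermat.Agent.LT.T5.instMeasurableSpaceG

/-! ## 1. Vocabulary -/

section Vocab

variable (K K' : Type) [Field K] [NumberField K] [Field K'] [NumberField K'] [Algebra K K']

/-- The type of the local shapes of the FIRST pair (the type of `H893.LocA893`). -/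
abbrev ShapeA797 : Type :=
  L2Base K K' → Ideal (𝓞 K) → @Measure (GL (Fin 2) ℂ) (borel _) →
    Finset (HeightOneSpectrum (𝓞 K)) → (HeightOneSpectrum (𝓞 K') → ℕ) →
    (HeightOneSpectrum (𝓞 K) → ℕ) → LocCond K K'

/-- The type of the local shapes of the SECOND pair (the type of `H893.LocB893`). -/
abbrev ShapeB797 : Type :=
  L2Base K K' → G K' → Ideal (𝓞 K) → @Measure (GL (Fin 2) ℂ) (borel _) →
    Finset (HeightOneSpectrum (𝓞 K)) → (HeightOneSpectrum (𝓞 K') → ℕ) →
    (HeightOneSpectrum (𝓞 K') → ℕ) → (HeightOneSpectrum (𝓞 K) → ℕ) → LocCond K K'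

variable {K K'}

/-- **The level properties** (the first four fields of `H893.IsL2PreOp`). -/
structure IsLevel797 (B : L2Base K K') (𝔫 : Ideal (𝓞 K)) : Prop where
  level_ne : 𝔫 ≠ ⊥
  level_g : upI (K' := K') 𝔫 ≤ B.𝔑₀
  mem_S'_g : ∀ w : HeightOneSpectrum (𝓞 K'), w ∈ B.S' ↔ w.asIdeal ∣ upI (K' := K') 𝔫
  u_level : B.u.asIdeal ∣ 𝔫

/-- **The exponents of the levels** (the first four clauses of `H893.IsDecomp893`). -/
structure IsExp797 (B : L2Base K K') (𝔫 : Ideal (𝓞 K))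
    (T₀ : Finset (HeightOneSpectrum (𝓞 K)))
    (n n₀ : HeightOneSpectrum (𝓞 K') → ℕ) (m : HeightOneSpectrum (𝓞 K) → ℕ) : Prop where
  mem_T₀ : ∀ v : HeightOneSpectrum (𝓞 K), v ∈ T₀ ↔ v.asIdeal ∣ 𝔫
  lev_m : IsLevelOf893 𝔫 m
  lev_n : IsLevelOf893 (upI (K' := K') 𝔫) n
  lev_n₀ : IsLevelOf893 B.𝔑₀ n₀

/-- **The coset systems** (the fields `sysg`, `sys'`, `unif'`, `sys`, `unif` of
`H893.IsL2PreOp`). -/
structure IsCosets797 (B : L2Base K K') (g : G K') (Hg H' : Finset (G K')) (z' : G K')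
    (H : Finset (G K)) (z : G K) : Prop where
  sysg : IsDblCosetSystem B.𝔑₀ g Hg
  sys' : IsIwCosetSystem (B.o 0) H'
  unif' : IsScalarUniformizerAt (B.o 0) z'
  sys : IsIwCosetSystem B.u H
  unif : IsScalarUniformizerAt B.u z

/-- **THE PROPERTIES OF THE FIRST PAIR** `(Φ₁ X, F₁ X)` with the scalar `c₁`: the fields
`up1_*`, `dn1_*` of `H893.IsL2PreOp`, the `c₁`-part of `up_ne`, the fields `up1_supp`,
`dn1_supp` of `H893.IsL2PreSupp` (same statements), and the local shape. -/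
structure IsPairA797 (LA : ShapeA797 K K') (ℓ : ℕ) (Φ : HeckeEigensystem K' ℂ)
    (B : L2Base K K') (𝔫 : Ideal (𝓞 K)) (μc : @Measure (GL (Fin 2) ℂ) (borel _))
    (T₀ : Finset (HeightOneSpectrum (𝓞 K)))
    (n : HeightOneSpectrum (𝓞 K') → ℕ) (m : HeightOneSpectrum (𝓞 K) → ℕ)
    (c₁ : EigData K' → ℂ) (Φ₁ : List (Gen K') → G K' → ℂ) (F₁ : List (Gen K') → G K → ℂ) :
    Prop where
  up1_test : ∀ X : List (Gen K'), (∀ x ∈ X, x.Out B.S') →
    T5.IsTestFn (upI (K' := K') 𝔫) T5.trivType (Φ₁ X)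
  up1_ek : ∀ X : List (Gen K'), (∀ x ∈ X, x.Out B.S') →
    T5.IsEK B.R'.μ (Φ₁ X) ∧ T5.IsEK B.R'.μ (T5.adjointFn (Φ₁ X))
  up1_op : ∀ X : List (Gen K'), (∀ x ∈ X, x.Out B.S') →
    ∀ (χ : G K' → ℂ) (C : EigData K'), IsEigFn B.𝔑₀ B.R'.r ℓ B.o χ C →
      ∀ x : G K', T5.Rconv B.R'.μ (Φ₁ X) χ x = wordEv X C * c₁ C * χ x
  up1_ne : ∀ C : EigData K', C.AgreeOut B.S' (eigOf Φ) → c₁ C ≠ 0
  dn1_test : ∀ X : List (Gen K'), (∀ x ∈ X, x.Out B.S') →
    T5.IsTestFn 𝔫 T5.trivType (F₁ X)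
  dn1_ek : ∀ X : List (Gen K'), (∀ x ∈ X, x.Out B.S') →
    T5.IsEK B.R.μ (F₁ X) ∧ T5.IsEK B.R.μ (T5.adjointFn (F₁ X))
  dn1_op : ∀ X : List (Gen K'), (∀ x ∈ X, x.Out B.S') →
    ∀ (χ : G K → ℂ) (c : EigData K) (C : EigData K'),
      IsEigFn 𝔫 B.R.r 1 (fun _ => B.u) χ c → IsBCData c C B.S' →
      ∀ x : G K, T5.Rconv B.R.μ (F₁ X) χ x = wordEv X C * T5.Rconv B.R.μ (F₁ []) χ x
  dn1_wfn : ∀ ψ : G K → ℂ, IsWFn 𝔫 B.R.r 1 (fun _ => B.u) ψ →
    IsWFn 𝔫 B.R.r 1 (fun _ => B.u) (T5.Rconv B.R.μ (F₁ []) ψ)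
  dn1_class : ∀ (ψ : G K → ℂ) (c : EigData K), IsEigFn 𝔫 B.R.r 1 (fun _ => B.u) ψ c →
    IsEigFn 𝔫 B.R.r 1 (fun _ => B.u) (T5.Rconv B.R.μ (F₁ []) ψ) c
  dn1_comm : ∀ ψ : G K → ℂ, IsWFn 𝔫 B.R.r 1 (fun _ => B.u) ψ →
    ∀ (H : Finset (G K)) (z : G K), IsIwCosetSystem B.u H → IsScalarUniformizerAt B.u z →
      (∀ x : G K, T5.Rconv B.R.μ (F₁ []) (iwOp B.u H ψ) x
        = iwOp B.u H (T5.Rconv B.R.μ (F₁ []) ψ) x) ∧
      ∀ (k : ℤ) (x : G K), T5.Rconv B.R.μ (F₁ []) (shiftOp z k ψ) x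
        = shiftOp z k (T5.Rconv B.R.μ (F₁ []) ψ) x
  up1_supp : ∀ X : List (Gen K'), (∀ x ∈ X, x.Out B.S') →
    ∃ C : Set (G K'), IsCompact C ∧ T5.H32.IsIwSupported32 ℓ B.o C (Φ₁ X)
  dn1_supp : ∀ X : List (Gen K'), (∀ x ∈ X, x.Out B.S') →
    ∃ C : Set (G K), IsCompact C ∧ T5.H32.IsIwSupported32 1 (fun _ => B.u) C (F₁ X)
  /-- the local shape: averages of pure tensors with the local condition `LA`, constant `1` -/
  shape : ∀ X : List (Gen K'), (∀ x ∈ X, x.Out B.S') →
    IsAvgPure (upI (K' := K') 𝔫) 𝔫 T₀ (LA B 𝔫 μc T₀ n m) 1 (Φ₁ X) (F₁ X)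

/-- **THE PROPERTIES OF THE SECOND PAIR** `(φ₂, f₂)` with the scalar `c₂` and the constant `a`:
the fields `up2_*`, `dn2_*` of `H893.IsL2PreOp`, the `c₂`-part of `up_ne`, the fields
`up2_supp`, `dn2_supp` of `H893.IsL2PreSupp` (same statements), and the local shape. -/
structure IsPairB797 (LB : ShapeB797 K K') (ℓ : ℕ) (Φ : HeckeEigensystem K' ℂ)
    (B : L2Base K K') (g : G K') (𝔫 : Ideal (𝓞 K))
    (μc : @Measure (GL (Fin 2) ℂ) (borel _)) (T₀ : Finset (HeightOneSpectrum (𝓞 K)))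
    (n n₀ : HeightOneSpectrum (𝓞 K') → ℕ) (m : HeightOneSpectrum (𝓞 K) → ℕ) (a : ℂ)
    (c₂ : EigData K' → ℂ) (φ₂ : G K' → ℂ) (f₂ : G K → ℂ) : Prop where
  up2_test : T5.IsTestFn (upI (K' := K') 𝔫) T5.trivType φ₂
  up2_ek : T5.IsEK B.R'.μ φ₂ ∧ T5.IsEK B.R'.μ (T5.adjointFn φ₂)
  up2_inv : IsUInv B.𝔑₀ ℓ B.o φ₂
  up2_op : ∀ (ψ : G K' → ℂ) (C : EigData K'), IsEigFn B.𝔑₀ B.R'.r ℓ B.o ψ C →
    ∀ x : G K', T5.Rconv B.R'.μ φ₂ ψ x = c₂ C * ψ x
  up2_kill : ∀ ψ : G K' → ℂ, T5.IsCuspFn (upI (K' := K') 𝔫) T5.trivType B.R'.r ψ →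
    (∀ χ : G K' → ℂ, IsWFn B.𝔑₀ B.R'.r ℓ B.o χ → T5.innerD B.R'.μ B.R'.F ψ χ = 0) →
    ∀ x : G K', T5.Rconv B.R'.μ φ₂ ψ x = 0
  up2_ne : ∀ C : EigData K', C.AgreeOut B.S' (eigOf Φ) → c₂ C ≠ 0
  dn2_test : T5.IsTestFn 𝔫 T5.trivType f₂
  dn2_ek : T5.IsEK B.R.μ f₂ ∧ T5.IsEK B.R.μ (T5.adjointFn f₂)
  dn2_inv : IsUInv 𝔫 1 (fun _ => B.u) f₂
  dn2_wfn : ∀ ψ : G K → ℂ, IsWFn 𝔫 B.R.r 1 (fun _ => B.u) ψ →
    IsWFn 𝔫 B.R.r 1 (fun _ => B.u) (T5.Rconv B.R.μ f₂ ψ)
  dn2_class : ∀ (ψ : G K → ℂ) (c : EigData K), IsEigFn 𝔫 B.R.r 1 (fun _ => B.u) ψ c →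
    IsEigFn 𝔫 B.R.r 1 (fun _ => B.u) (T5.Rconv B.R.μ f₂ ψ) c
  dn2_comm : ∀ ψ : G K → ℂ, IsWFn 𝔫 B.R.r 1 (fun _ => B.u) ψ →
    ∀ (H : Finset (G K)) (z : G K), IsIwCosetSystem B.u H → IsScalarUniformizerAt B.u z →
      (∀ x : G K, T5.Rconv B.R.μ f₂ (iwOp B.u H ψ) x
        = iwOp B.u H (T5.Rconv B.R.μ f₂ ψ) x) ∧
      ∀ (k : ℤ) (x : G K), T5.Rconv B.R.μ f₂ (shiftOp z k ψ) x
        = shiftOp z k (T5.Rconv B.R.μ f₂ ψ) x
  dn2_kill : ∀ ψ : G K → ℂ, T5.IsCuspFn 𝔫 T5.trivType B.R.r ψ →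
    (∀ χ : G K → ℂ, IsWFn 𝔫 B.R.r 1 (fun _ => B.u) χ → T5.innerD B.R.μ B.R.F ψ χ = 0) →
    ∀ x : G K, T5.Rconv B.R.μ f₂ ψ x = 0
  up2_supp : ∃ C : Set (G K'), IsCompact C ∧ T5.H32.IsIwSupported32 ℓ B.o C φ₂
  dn2_supp : ∃ C : Set (G K), IsCompact C ∧ T5.H32.IsIwSupported32 1 (fun _ => B.u) C f₂
  /-- the local shape: averages of pure tensors with the local condition `LB`, constant `a` -/
  shape : IsAvgPure (upI (K' := K') 𝔫) 𝔫 T₀ (LB B g 𝔫 μc T₀ n n₀ m) a φ₂ f₂

/-- The local shape of the pre-data for general local conditions (`H893.IsDecomp893` is the case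
`LA = LocA893`, `LB = LocB893`, by definition). -/
def IsDecompG797 (LA : ShapeA797 K K') (LB : ShapeB797 K K')
    (μc : @Measure (GL (Fin 2) ℂ) (borel _)) (a : ℂ) (B : L2Base K K') (g : G K')
    (E : L2Pre K K') : Prop :=
  ∃ (T₀ : Finset (HeightOneSpectrum (𝓞 K)))
    (n n₀ : HeightOneSpectrum (𝓞 K') → ℕ) (m : HeightOneSpectrum (𝓞 K) → ℕ),
    (∀ v : HeightOneSpectrum (𝓞 K), v ∈ T₀ ↔ v.asIdeal ∣ E.𝔫) ∧
    IsLevelOf893 E.𝔫 m ∧ IsLevelOf893 (upI (K' := K') E.𝔫) n ∧ IsLevelOf893 B.𝔑₀ n₀ ∧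
    (∀ X : List (Gen K'), (∀ x ∈ X, x.Out B.S') →
      IsAvgPure (upI (K' := K') E.𝔫) E.𝔫 T₀ (LA B E.𝔫 μc T₀ n m) 1 (E.Φ₁ X) (E.F₁ X)) ∧
    IsAvgPure (upI (K' := K') E.𝔫) E.𝔫 T₀ (LB B g E.𝔫 μc T₀ n n₀ m) a E.φ₂ E.f₂

end Vocab

/-! ## 2. The leaves and the nodes -/

section Nodes

variable (P : EKCond)
variable (K K' : Type) [Field K] [NumberField K] [Field K'] [NumberField K'] [Algebra K K']

/-- **LEAF BC.1 = EXP (small; Dedekind domains).**  A non-zero level `𝔫` of `K` with the level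
properties has exponents: `T₀` = the finite set of the prime divisors of `𝔫`, `m v` = the
multiplicity of `v` in `𝔫`, `n w` = the multiplicity of `w` in `𝔫 𝒪_{K'}`, `n₀ w` = the
multiplicity of `w` in `𝔑₀` (`𝔑₀ ≠ 0` by `IsL2Base.base_level`); the closure of an ideal `𝔞 ≠ 0`
in `K_v` is the ball of radius `exp (- v(𝔞))`. -/
def ExpC797 : Prop :=
  ∀ (ℓ : ℕ) (Φ : HeckeEigensystem K' ℂ) (B : L2Base K K'), IsL2Base ℓ Φ B →
    ∀ 𝔫 : Ideal (𝓞 K), IsLevel797 B 𝔫 →
      ∃ (T₀ : Finset (HeightOneSpectrum (𝓞 K)))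
        (n n₀ : HeightOneSpectrum (𝓞 K') → ℕ) (m : HeightOneSpectrum (𝓞 K) → ℕ),
        IsExp797 B 𝔫 T₀ n n₀ m

/-- **LEAF BC.2 = COSET (closed assets).**  The coset systems of the pre-data exist. -/
def CosetC797 : Prop :=
  ∀ (ℓ : ℕ) (Φ : HeckeEigensystem K' ℂ) (B : L2Base K K'), IsL2Base ℓ Φ B →
    ∀ g : G K', B.IsBad g →
      ∃ (Hg H' : Finset (G K')) (z' : G K') (H : Finset (G K)) (z : G K),
        IsCosets797 B g Hg H' z' H z

/-- **NODE BC.A = PAIR-A (the first pair; T3 + T6).**  For a common part which contains the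
ramified places, EVERY level with the level properties, EVERY Haar measure of `GL₂(ℂ)` and the
exponents of the level: a scalar `c₁` and families `(Φ₁ X, F₁ X)` with the properties of the
first pair.
Construction.  Eisenstein-killing datum upstairs for the level `𝔑 = 𝔫 𝒪_{K'}` and `S'` from
`P = T7.ekMulti`; `Φ₁ [] = ` the Eisenstein-killing function of T3 in the explicit form of
helper14 (`T3/M/Explicit.lean`: finite sum of `pureFnM`, unit components at the level, spherical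
outside, bi-`U(2)`-invariant at infinity), `Φ₁ X = ` the word `X` (spherical Hecke operators
outside `S'`) applied to it; `c₁` = its scalar.  Downstairs: the norm datum; the components of
`F₁ X` are the base change of the components upstairs at the places with one place over them
(`T6.BCExistsC`, `T6.FundLemmaC`), the convolution products over the fibre at the split places
and at infinity (`convL305 μc`).  Eisenstein-killing downstairs: the coordinates downstairs are
the push-forward of the coordinates upstairs under the norm of the tori, and the push-forward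
of a telescoping function telescopes.  `dn1_op`: the Satake transform of the base change at the
parameters of `c` is the Satake transform upstairs at the parameters of `C` (`IsBCData`). -/
def PairAC797 (LA : ShapeA797 K K') : Prop :=
  ∀ ℓ : ℕ, IsCycExt K K' ℓ → ℓ ≠ 2 → TotCplx K →
    ∀ Φ : HeckeEigensystem K' ℂ, A0.IsCuspAdelicSph0 K' Φ → ConstOnFibres K Φ → P K' Φ →
      ∀ B : L2Base K K', IsL2Base ℓ Φ B → B.RamIn →
      ∀ 𝔫 : Ideal (𝓞 K), IsLevel797 B 𝔫 →
      ∀ μc : @Measure (GL (Fin 2) ℂ) (borel _), @Measure.IsHaarMeasure _ _ _ (borel _) μc →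
      ∀ (T₀ : Finset (HeightOneSpectrum (𝓞 K)))
        (n n₀ : HeightOneSpectrum (𝓞 K') → ℕ) (m : HeightOneSpectrum (𝓞 K) → ℕ),
        IsExp797 B 𝔫 T₀ n n₀ m →
        ∃ (c₁ : EigData K' → ℂ) (Φ₁ : List (Gen K') → G K' → ℂ)
          (F₁ : List (Gen K') → G K → ℂ),
          IsPairA797 LA ℓ Φ B 𝔫 μc T₀ n m c₁ Φ₁ F₁

/-- **NODE BC.B = PAIR-B (the second pair, for ONE bad element; T3 + T6 + `♮`).**  For a common
part which contains the ramified places and a bad element `g`: a level `𝔫` with the level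
properties and a Haar measure `μc` of `GL₂(ℂ)` such that for the exponents of the level and
EVERY constant `a ≠ 0` there are a scalar `c₂` and a pair `(φ₂, f₂)` with the properties of the
second pair.
Construction.  `𝔫 = 𝔫₀ ^ d`, `d` so large that the partners of the double coset functions
`1_{U₀ g_w U₀}` at the bad places (`T6.BadMatchC`; split bad places: convolution products in the
order of ONE `σ`-ordered enumeration of the fibre) are bi-invariant under `U(𝔫)_v`.  `φ₂` = the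
natural average (`H193.nat193`, compatible torus data `H193.IsRelTorus`; finite group
`H / U(𝔑)`: kit of helper40) of an Eisenstein-killing function with unit components `1_{U₀}`
at the bad places and Iwahori components along the orbit; `f₂ = a ·` the function with the
partners at the bad places, the Iwahori function at `u`, the base change outside, and the
push-forward average at infinity (`H193.nat_eq_push193`: it IS the natural average
downstairs).  Killing: `H193.killing_of_torus193`. -/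
def PairBC797 (LB : ShapeB797 K K') : Prop :=
  ∀ ℓ : ℕ, IsCycExt K K' ℓ → ℓ ≠ 2 → TotCplx K →
    ∀ Φ : HeckeEigensystem K' ℂ, A0.IsCuspAdelicSph0 K' Φ → ConstOnFibres K Φ → P K' Φ →
      ∀ B : L2Base K K', IsL2Base ℓ Φ B → B.RamIn → ∀ g : G K', B.IsBad g →
        ∃ (𝔫 : Ideal (𝓞 K)) (μc : @Measure (GL (Fin 2) ℂ) (borel _)),
          IsLevel797 B 𝔫 ∧ @Measure.IsHaarMeasure _ _ _ (borel _) μc ∧
          ∀ (T₀ : Finset (HeightOneSpectrum (𝓞 K)))
            (n n₀ : HeightOneSpectrum (𝓞 K') → ℕ) (m : HeightOneSpectrum (𝓞 K) → ℕ),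
            IsExp797 B 𝔫 T₀ n n₀ m →
            ∀ a : ℂ, a ≠ 0 →
              ∃ (c₂ : EigData K' → ℂ) (φ₂ : G K' → ℂ) (f₂ : G K → ℂ),
                IsPairB797 LB ℓ Φ B g 𝔫 μc T₀ n n₀ m a c₂ φ₂ f₂

/-- **The node `BaseC` for general local shapes** (`H893.BaseC P K K'` is the case
`LA = LocA893`, `LB = LocB893`). -/
def BaseGC797 (LA : ShapeA797 K K') (LB : ShapeB797 K K') : Prop :=
  ∀ ℓ : ℕ, IsCycExt K K' ℓ → ℓ ≠ 2 → TotCplx K →
    ∀ Φ : HeckeEigensystem K' ℂ, A0.IsCuspAdelicSph0 K' Φ → ConstOnFibres K Φ → P K' Φ →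
      ∀ B : L2Base K K', IsL2Base ℓ Φ B → B.RamIn → ∀ g : G K', B.IsBad g →
        ∃ (𝔫 : Ideal (𝓞 K)) (μc : @Measure (GL (Fin 2) ℂ) (borel _)),
          @Measure.IsHaarMeasure _ _ _ (borel _) μc ∧
          ∀ a : ℂ, a ≠ 0 → ∃ E : L2Pre K K', E.𝔫 = 𝔫 ∧
            IsL2PreOp ℓ Φ B g E ∧ IsL2PreSupp ℓ B E ∧ IsDecompG797 LA LB μc a B g E

end Nodes

/-! ## Appendix: the equation lemmas of the definitions of this file are realised HERE -/

theorem eqns_realised_baseCutSpec797 : True := by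
  have _h0_0 := @ShapeA797.eq_1
  have _h0_1 := @ShapeA797.eq_def
  have _h0_2 := @ShapeA797.eq_unfold
  have _h1_0 := @ShapeB797.eq_1
  have _h1_1 := @ShapeB797.eq_def
  have _h1_2 := @ShapeB797.eq_unfold
  have _h2_0 := @IsDecompG797.eq_1
  have _h2_1 := @IsDecompG797.eq_def
  have _h2_2 := @IsDecompG797.eq_unfold
  have _h3_0 := @ExpC797.eq_1
  have _h3_1 := @ExpC797.eq_def
  have _h3_2 := @ExpC797.eq_unfold
  have _h4_0 := @CosetC797.eq_1
  have _h4_1 := @CosetC797.eq_def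
  have _h4_2 := @CosetC797.eq_unfold
  have _h5_0 := @PairAC797.eq_1
  have _h5_1 := @PairAC797.eq_def
  have _h5_2 := @PairAC797.eq_unfold
  have _h6_0 := @PairBC797.eq_1
  have _h6_1 := @PairBC797.eq_def
  have _h6_2 := @PairBC797.eq_unfold
  have _h7_0 := @BaseGC797.eq_1
  have _h7_1 := @BaseGC797.eq_def
  have _h7_2 := @BaseGC797.eq_unfold
  trivial

end Fermat.Agent.LT.T7.Q797

end
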