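import Mathlib
import Fermat.Agent.LT.T7.Q797.BaseCutSpec

/-!
# Row LT, tower T7, node T7.L2.1.H2a `H893.BaseC` (registry row 2597): FIRST CUT -- PROVED TOP

OFF-MAIN.  No hole, nothing assumed.  ADDITIVE (new names only, suffix `797`).

    baseGC_of797 : ExpC797 K K' → CosetC797 K K' → PairAC797 P K K' LA → PairBC797 P K K' LB
        → BaseGC797 P K K' LA LB
    baseC_of797  : ExpC797 K K' → CosetC797 K K' → PairAC797 P K K' LocA893
        → PairBC797 P K K' LocB893 → H893.BaseC P K K'                       (VERBATIM)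
-/

set_option autoImplicit false

open AutomorphicForm IsDedekindDomain NumberField MeasureTheory
open scoped ComplexConjugate

noncomputable section

namespace Fermat.Agent.LT.T7.Q797

open Fermat.Agent.LT.H556 Fermat.Agent.LT.H556.A0 Fermat.Agent.LT.T7
open Fermat.Agent.LT.T7.H893 Fermat.Agent.LT.T7.H305

attribute [local instance] Fermat.Agent.LT.T5.instMeasurableSpaceG

section Top

variable {P : EKCond}
variable {K K' : Type} [Field K] [NumberField K] [Field K'] [NumberField K'] [Algebra K K']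

/-- The pre-data assembled from the components. -/
def mkPre797 (𝔫 : Ideal (𝓞 K)) (c₁ c₂ : EigData K' → ℂ) (Φ₁ : List (Gen K') → G K' → ℂ)
    (φ₂ : G K' → ℂ) (F₁ : List (Gen K') → G K → ℂ) (f₂ : G K → ℂ) (Hg H' : Finset (G K'))
    (z' : G K') (H : Finset (G K)) (z : G K) : L2Pre K K' where
  𝔫 := 𝔫
  c₁ := c₁
  c₂ := c₂
  Φ₁ := Φ₁
  φ₂ := φ₂
  F₁ := F₁
  f₂ := f₂
  Hg := Hg
  H' := H'
  z' := z'
  H := H
  z := z
  m₀ := fun _ => 0

/-- The operator properties of the assembled pre-data. -/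
theorem isL2PreOp_mk797 {LA : ShapeA797 K K'} {LB : ShapeB797 K K'} {ℓ : ℕ}
    {Φ : HeckeEigensystem K' ℂ} {B : L2Base K K'} {g : G K'} {𝔫 : Ideal (𝓞 K)}
    {μc : @Measure (GL (Fin 2) ℂ) (borel _)} {T₀ : Finset (HeightOneSpectrum (𝓞 K))}
    {n n₀ : HeightOneSpectrum (𝓞 K') → ℕ} {m : HeightOneSpectrum (𝓞 K) → ℕ} {a : ℂ}
    {c₁ c₂ : EigData K' → ℂ} {Φ₁ : List (Gen K') → G K' → ℂ} {φ₂ : G K' → ℂ}
    {F₁ : List (Gen K') → G K → ℂ} {f₂ : G K → ℂ} {Hg H' : Finset (G K')} {z' : G K'}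
    {H : Finset (G K)} {z : G K}
    (hL : IsLevel797 B 𝔫) (hC : IsCosets797 B g Hg H' z' H z)
    (hA : IsPairA797 LA ℓ Φ B 𝔫 μc T₀ n m c₁ Φ₁ F₁)
    (hB : IsPairB797 LB ℓ Φ B g 𝔫 μc T₀ n n₀ m a c₂ φ₂ f₂) :
    IsL2PreOp ℓ Φ B g (mkPre797 𝔫 c₁ c₂ Φ₁ φ₂ F₁ f₂ Hg H' z' H z) where
  level_ne := hL.level_ne
  level_g := hL.level_g
  mem_S'_g := hL.mem_S'_g
  u_level := hL.u_level
  sysg := hC.sysg
  sys' := hC.sys'
  unif' := hC.unif'
  sys := hC.sys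
  unif := hC.unif
  up1_test := hA.up1_test
  up1_ek := hA.up1_ek
  up1_op := hA.up1_op
  up2_test := hB.up2_test
  up2_ek := hB.up2_ek
  up2_inv := hB.up2_inv
  up2_op := hB.up2_op
  up2_kill := hB.up2_kill
  up_ne := fun C hC' => ⟨hA.up1_ne C hC', hB.up2_ne C hC'⟩
  dn1_test := hA.dn1_test
  dn1_ek := hA.dn1_ek
  dn1_op := hA.dn1_op
  dn1_wfn := hA.dn1_wfn
  dn1_class := hA.dn1_class
  dn1_comm := hA.dn1_comm
  dn2_test := hB.dn2_test
  dn2_ek := hB.dn2_ek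
  dn2_inv := hB.dn2_inv
  dn2_wfn := hB.dn2_wfn
  dn2_class := hB.dn2_class
  dn2_comm := hB.dn2_comm
  dn2_kill := hB.dn2_kill

/-- The supports of the assembled pre-data. -/
theorem isL2PreSupp_mk797 {LA : ShapeA797 K K'} {LB : ShapeB797 K K'} {ℓ : ℕ}
    {Φ : HeckeEigensystem K' ℂ} {B : L2Base K K'} {g : G K'} {𝔫 : Ideal (𝓞 K)}
    {μc : @Measure (GL (Fin 2) ℂ) (borel _)} {T₀ : Finset (HeightOneSpectrum (𝓞 K))}
    {n n₀ : HeightOneSpectrum (𝓞 K') → ℕ} {m : HeightOneSpectrum (𝓞 K) → ℕ} {a : ℂ}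
    {c₁ c₂ : EigData K' → ℂ} {Φ₁ : List (Gen K') → G K' → ℂ} {φ₂ : G K' → ℂ}
    {F₁ : List (Gen K') → G K → ℂ} {f₂ : G K → ℂ}
    (hA : IsPairA797 LA ℓ Φ B 𝔫 μc T₀ n m c₁ Φ₁ F₁)
    (hB : IsPairB797 LB ℓ Φ B g 𝔫 μc T₀ n n₀ m a c₂ φ₂ f₂)
    (Hg H' : Finset (G K')) (z' : G K') (H : Finset (G K)) (z : G K) :
    IsL2PreSupp ℓ B (mkPre797 𝔫 c₁ c₂ Φ₁ φ₂ F₁ f₂ Hg H' z' H z) where
  up1_supp := hA.up1_supp
  up2_supp := hB.up2_supp
  dn1_supp := hA.dn1_supp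
  dn2_supp := hB.dn2_supp

/-- **THE TOP OF THE FIRST CUT OF `BaseC`, general local shapes.** -/
theorem baseGC_of797 {LA : ShapeA797 K K'} {LB : ShapeB797 K K'}
    (hE : ExpC797 K K') (hCo : CosetC797 K K') (hA : PairAC797 P K K' LA)
    (hB : PairBC797 P K K' LB) : BaseGC797 P K K' LA LB := by
  intro ℓ hcyc hℓ hcplx Φ hΦ hconst hPΦ B hBase hRam g hg
  obtain ⟨𝔫, μc, hL, hμc, hpB⟩ := hB ℓ hcyc hℓ hcplx Φ hΦ hconst hPΦ B hBase hRam g hg
  obtain ⟨T₀, n, n₀, m, hexp⟩ := hE ℓ Φ B hBase 𝔫 hL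
  obtain ⟨Hg, H', z', H, z, hC⟩ := hCo ℓ Φ B hBase g hg
  obtain ⟨c₁, Φ₁, F₁, hpA⟩ :=
    hA ℓ hcyc hℓ hcplx Φ hΦ hconst hPΦ B hBase hRam 𝔫 hL μc hμc T₀ n n₀ m hexp
  refine ⟨𝔫, μc, hμc, fun a ha => ?_⟩
  obtain ⟨c₂, φ₂, f₂, hpB'⟩ := hpB T₀ n n₀ m hexp a ha
  exact ⟨mkPre797 𝔫 c₁ c₂ Φ₁ φ₂ F₁ f₂ Hg H' z' H z, rfl,
    isL2PreOp_mk797 hL hC hpA hpB', isL2PreSupp_mk797 hpA hpB' Hg H' z' H z,
    T₀, n, n₀, m, hexp.mem_T₀, hexp.lev_m, hexp.lev_n, hexp.lev_n₀, hpA.shape, hpB'.shape⟩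

/-- The general node for the shapes of record IS the node of helper893. -/
theorem baseC_of_baseGC797 (h : BaseGC797 P K K' LocA893 LocB893) : BaseC P K K' := h

/-- The node of helper893 IS the general node for the shapes of record. -/
theorem baseGC_of_baseC797 (h : BaseC P K K') : BaseGC797 P K K' LocA893 LocB893 := h

/-- **THE TOP OF THE FIRST CUT OF `H893.BaseC`** (registry row 2597), VERBATIM. -/
theorem baseC_of797 (hE : ExpC797 K K') (hCo : CosetC797 K K')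
    (hA : PairAC797 P K K' LocA893) (hB : PairBC797 P K K' LocB893) : BaseC P K K' :=
  baseC_of_baseGC797 (baseGC_of797 hE hCo hA hB)

end Top

/-! ## Appendix: the equation lemmas of the definition of this file are realised HERE -/

theorem eqns_realised_baseCutTop797 : True := by
  have _h0 := @mkPre797.eq_1
  have _h1 := @mkPre797.eq_def
  have _h2 := @mkPre797.eq_unfold
  trivial

end Fermat.Agent.LT.T7.Q797

end
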