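import Mathlib
import Fermat.Agent.LT.T7.H893.SupplyConstrSpec2
import Fermat.Agent.LT.T7.Q797.BaseCutTop

/-!
# Row LT, tower T7, node T7.L2.1.H2a v2 `H893.BaseCb` (registry row 2597): THE TOP OF THE FIRST
# CUT FOR THE FORM OF RECORD v2 (split clause for ONE enumeration, `H893.LocHyp893`)

OFF-MAIN.  No hole, nothing assumed.  ADDITIVE (new names only, suffix `797`).  The cut
`BaseCutSpec.lean` is parametric in the local shapes; the form of record v2 of helper893
(`SupplyConstrSpec2.lean` f8a1da64929e: `LocB893b`, `IsDecomp893b`, `BaseCb`) is the case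
`LA = LocA893`, `LB = LocB893b`, by definition.

    baseCb_of797 : ExpC797 K K' → CosetC797 K K' → PairAC797 P K K' LocA893
        → PairBC797 P K K' LocB893b → H893.BaseCb P K K'                     (VERBATIM)
-/

set_option autoImplicit false

open AutomorphicForm IsDedekindDomain NumberField MeasureTheory
open scoped ComplexConjugate

noncomputable section

namespace Fermat.Agent.LT.T7.Q797

open Fermat.Agent.LT.H556 Fermat.Agent.LT.H556.A0 Fermat.Agent.LT.T7
open Fermat.Agent.LT.T7.H893 Fermat.Agent.LT.T7.H305

attribute [local instance] Fermat.Agent.LT.T5.instMeasurableSpaceG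

variable {P : EKCond}
variable {K K' : Type} [Field K] [NumberField K] [Field K'] [NumberField K'] [Algebra K K']

/-- The general node for the shapes of record v2 IS the node `BaseCb` of helper893. -/
theorem baseCb_of_baseGC797 (h : BaseGC797 P K K' LocA893 LocB893b) : BaseCb P K K' := h

/-- The node `BaseCb` of helper893 IS the general node for the shapes of record v2. -/
theorem baseGC_of_baseCb797 (h : BaseCb P K K') : BaseGC797 P K K' LocA893 LocB893b := h

/-- **THE TOP OF THE FIRST CUT OF `H893.BaseCb`** (form of record v2), VERBATIM. -/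
theorem baseCb_of797 (hE : ExpC797 K K') (hCo : CosetC797 K K')
    (hA : PairAC797 P K K' LocA893) (hB : PairBC797 P K K' LocB893b) : BaseCb P K K' :=
  baseCb_of_baseGC797 (baseGC_of797 hE hCo hA hB)

end Fermat.Agent.LT.T7.Q797

end
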